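/-
S58-PREP, row 375 (MU), brick 1: an abstract counting lemma.

If `G[lam ^ (n+1)]` has `lam ^ (2n+2)` elements, `G[lam ^ n]` has `lam ^ (2n)` elements, and
`ψ : G[lam ^ (n+1)] → ℤ/lam^(n+1)` is additive, then the kernel of `ψ` contains a point of exact
order `lam ^ (n+1)`.  (The quotient by the kernel is cyclic, whereas `G[lam ^ (n+1)] / G[lam ^ n]`
is not.)
-/
import Mathlib

set_option autoImplicit false

namespace Fermat.Agent.S58.Mult

theorem exists_exact_order_of_hom {G : Type*} [AddCommGroup G] {lam n : ℕ} (hlam : lam.Prime)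
    (hcard1 : Nat.card (Submodule.torsionBy ℤ G ((lam ^ (n + 1) : ℕ) : ℤ)) = (lam ^ (n + 1)) ^ 2)
    (hcard0 : Nat.card (Submodule.torsionBy ℤ G ((lam ^ n : ℕ) : ℤ)) = (lam ^ n) ^ 2)
    (ψ : Submodule.torsionBy ℤ G ((lam ^ (n + 1) : ℕ) : ℤ) →+ ZMod (lam ^ (n + 1))) :
    ∃ P : Submodule.torsionBy ℤ G ((lam ^ (n + 1) : ℕ) : ℤ),
      ψ P = 0 ∧ lam ^ n • (P : G) ≠ 0 := by
  classical
  by_contra hcon
  push Not at hcon
  have hlam2 : 2 ≤ lam := hlam.two_le
  have hlampos : 0 < lam := hlam.pos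
  have hTfin : Finite (Submodule.torsionBy ℤ G ((lam ^ (n + 1) : ℕ) : ℤ)) :=
    Nat.finite_of_card_ne_zero (by rw [hcard1]; positivity)
  -- a generator of the range of `ψ`
  obtain ⟨g, hg⟩ := IsAddCyclic.exists_generator (α := ψ.range)
  obtain ⟨P₁, hP₁⟩ : ∃ P₁, ψ P₁ = (g : ZMod (lam ^ (n + 1))) := g.2
  have hP₁tors : lam ^ (n + 1) • (P₁ : G) = 0 := by
    have := (Submodule.mem_torsionBy_iff _ _).mp P₁.2
    rwa [natCast_zsmul] at this
  -- multiplication by `lam ^ n`
  let f : Submodule.torsionBy ℤ G ((lam ^ (n + 1) : ℕ) : ℤ) →+ G :=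
    (nsmulAddMonoidHom (lam ^ n)).comp
      (Submodule.torsionBy ℤ G ((lam ^ (n + 1) : ℕ) : ℤ)).subtype.toAddMonoidHom
  have hf : ∀ P, f P = lam ^ n • (P : G) := fun P => rfl
  -- the range of `f` is contained in the multiples of `Q = lam ^ n • P₁`
  have hrange : f.range ≤ AddSubgroup.zmultiples (lam ^ n • (P₁ : G)) := by
    rintro _ ⟨P, rfl⟩
    obtain ⟨a, ha⟩ := AddSubgroup.mem_zmultiples_iff.mp (hg ⟨ψ P, P, rfl⟩)
    have ha' : a • ψ P₁ = ψ P := by
      have := congrArg (Subtype.val) ha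
      rw [hP₁]
      simpa using this
    have h0 : ψ (P - a • P₁) = 0 := by
      rw [map_sub, map_zsmul, ha', sub_self]
    have h1 := hcon _ h0
    rw [AddSubgroup.mem_zmultiples_iff]
    refine ⟨a, ?_⟩
    rw [hf]
    have h2 : lam ^ n • ((P - a • P₁ : Submodule.torsionBy ℤ G ((lam ^ (n + 1) : ℕ) : ℤ)) : G) =
        lam ^ n • (P : G) - a • (lam ^ n • (P₁ : G)) := by
      push_cast
      rw [smul_sub, smul_comm]
    rw [h2, sub_eq_zero] at h1
    exact h1.symm
  have hQ : lam • (lam ^ n • (P₁ : G)) = 0 := by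
    rw [← mul_nsmul', ← pow_succ']
    exact hP₁tors
  have hord : addOrderOf (lam ^ n • (P₁ : G)) ∣ lam := addOrderOf_dvd_of_nsmul_eq_zero hQ
  have hordpos : 0 < addOrderOf (lam ^ n • (P₁ : G)) := Nat.pos_of_dvd_of_pos hord hlampos
  have hcardZ : Nat.card (AddSubgroup.zmultiples (lam ^ n • (P₁ : G))) ≤ lam := by
    rw [Nat.card_zmultiples]
    exact Nat.le_of_dvd hlampos hord
  have hZfin : Finite (AddSubgroup.zmultiples (lam ^ n • (P₁ : G))) :=
    Nat.finite_of_card_ne_zero (by rw [Nat.card_zmultiples]; exact hordpos.ne')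
  have hcardR : Nat.card f.range ≤ lam :=
    (AddSubgroup.card_le_of_le hrange).trans hcardZ
  -- the kernel of `f` is `G[lam ^ n]`
  have hker : Nat.card f.ker = (lam ^ n) ^ 2 := by
    rw [← hcard0]
    refine Nat.card_congr
      { toFun := fun P => ⟨((P : Submodule.torsionBy ℤ G ((lam ^ (n + 1) : ℕ) : ℤ)) : G), ?_⟩
        invFun := fun P => ⟨⟨(P : G), ?_⟩, ?_⟩
        left_inv := fun P => rfl
        right_inv := fun P => rfl }
    · rw [Submodule.mem_torsionBy_iff, natCast_zsmul]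
      exact P.2
    · rw [Submodule.mem_torsionBy_iff, natCast_zsmul, pow_succ, mul_comm, mul_nsmul']
      have := (Submodule.mem_torsionBy_iff _ _).mp P.2
      rw [natCast_zsmul] at this
      rw [this, smul_zero]
    · rw [AddMonoidHom.mem_ker, hf]
      have := (Submodule.mem_torsionBy_iff _ _).mp P.2
      rwa [natCast_zsmul] at this
  have hcount := AddSubgroup.card_eq_card_quotient_mul_card_addSubgroup f.ker
  rw [Nat.card_congr (QuotientAddGroup.quotientKerEquivRange f).toEquiv, hcard1, hker] at hcount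
  have hpow : (lam ^ (n + 1)) ^ 2 = lam ^ 2 * (lam ^ n) ^ 2 := by ring
  rw [hpow] at hcount
  have hpos : 0 < (lam ^ n) ^ 2 := by positivity
  have h3 : lam ^ 2 = Nat.card f.range := Nat.eq_of_mul_eq_mul_right hpos hcount
  have h4 : lam ^ 2 ≤ lam := h3 ▸ hcardR
  nlinarith

/-- Torsion subgroups of isomorphic groups have the same size. -/
theorem card_torsionBy_congr {G H : Type*} [AddCommGroup G] [AddCommGroup H] (e : G ≃+ H)
    (a : ℤ) : Nat.card (Submodule.torsionBy ℤ G a) = Nat.card (Submodule.torsionBy ℤ H a) :=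
  Nat.card_congr
    { toFun := fun P => ⟨e P, by
        rw [Submodule.mem_torsionBy_iff, ← map_zsmul, (Submodule.mem_torsionBy_iff _ _).mp P.2,
          map_zero]⟩
      invFun := fun P => ⟨e.symm P, by
        rw [Submodule.mem_torsionBy_iff, ← map_zsmul, (Submodule.mem_torsionBy_iff _ _).mp P.2,
          map_zero]⟩
      left_inv := fun P => Subtype.ext (e.symm_apply_apply _)
      right_inv := fun P => Subtype.ext (e.apply_symm_apply _) }

end Fermat.Agent.S58.Mult
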