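/-
S58-PREP, row 375 (MU), brick 2: on the nodal normal form `y² + g x y = x³ + b x`
(`v g = 1`, `0 < v b < 1`) whose `lam`-power torsion has the expected size there is a point of
exact order `lam ^ (n+1)` with class `1`, i.e. with nonsingular reduction.
-/
import Fermat.Agent.EC.NF.ClsHom
import Fermat.Agent.S58.Mult.Group

set_option autoImplicit false

namespace Fermat.Agent.S58.Mult

open WeierstrassCurve WeierstrassCurve.Affine Fermat.Agent.EC.NF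

variable {K : Type*} [Field K] [DecidableEq K] {Γ₀ : Type*} [LinearOrderedCommGroupWithZero Γ₀]
  (v : Valuation K Γ₀) {W : Affine K}

theorem exists_torsion_cls_eq_one (hW : IsNF W) (hg : v W.a₁ = 1) (hb : v W.a₄ < 1)
    (hb0 : W.a₄ ≠ 0) {lam n : ℕ} (hlam : lam.Prime)
    (hcard1 : Nat.card (Submodule.torsionBy ℤ W.Point ((lam ^ (n + 1) : ℕ) : ℤ)) =
      (lam ^ (n + 1)) ^ 2)
    (hcard0 : Nat.card (Submodule.torsionBy ℤ W.Point ((lam ^ n : ℕ) : ℤ)) = (lam ^ n) ^ 2) :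
    ∃ P : W.Point, lam ^ (n + 1) • P = 0 ∧ lam ^ n • P ≠ 0 ∧ cls v P = 1 := by
  classical
  have hc : v W.a₄ ≠ 0 := (Valuation.ne_zero_iff v).mpr hb0
  have hcpos : 0 < v W.a₄ := zero_lt_iff.mpr hc
  have hinj : Function.Injective (fun k : ℤ => v W.a₄ ^ k) :=
    zpow_right_injective₀ hcpos hb.ne
  have hm0 : lam ^ (n + 1) ≠ 0 := pow_ne_zero _ hlam.ne_zero
  have htors : ∀ P : Submodule.torsionBy ℤ W.Point ((lam ^ (n + 1) : ℕ) : ℤ),
      lam ^ (n + 1) • (P : W.Point) = 0 := by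
    intro P
    have := (Submodule.mem_torsionBy_iff _ _).mp P.2
    rwa [natCast_zsmul] at this
  have hex : ∀ P : Submodule.torsionBy ℤ W.Point ((lam ^ (n + 1) : ℕ) : ℤ),
      ∃ k : ℤ, cls v (P : W.Point) ^ (lam ^ (n + 1)) = v W.a₄ ^ (2 * k) :=
    fun P => torsion_cls v hW hg hb hb0 (htors P)
  choose kf hkf using hex
  have hadd : ∀ P Q : Submodule.torsionBy ℤ W.Point ((lam ^ (n + 1) : ℕ) : ℤ),
      ((kf (P + Q) : ℤ) : ZMod (lam ^ (n + 1))) = (kf P : ZMod (lam ^ (n + 1))) + kf Q := by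
    intro P Q
    obtain ⟨j, hj⟩ := cls_add v hW hg hb hb0 (P : W.Point) (Q : W.Point)
    have h1 := hkf (P + Q)
    rw [Submodule.coe_add, hj, mul_pow, mul_pow, hkf P, hkf Q, ← zpow_natCast (v W.a₄ ^ (2 * j)),
      ← zpow_mul, ← zpow_add₀ hc, ← zpow_add₀ hc] at h1
    have h2 : 2 * kf P + 2 * kf Q + 2 * j * ((lam ^ (n + 1) : ℕ) : ℤ) = 2 * kf (P + Q) := hinj h1
    have h3 : kf (P + Q) = kf P + kf Q + j * ((lam ^ (n + 1) : ℕ) : ℤ) := by linarith
    rw [h3]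
    push_cast
    have : ((lam : ZMod (lam ^ (n + 1))) ^ (n + 1)) = 0 := by
      have := ZMod.natCast_self (lam ^ (n + 1))
      push_cast at this
      exact this
    rw [this, mul_zero, add_zero]
  let ψ : Submodule.torsionBy ℤ W.Point ((lam ^ (n + 1) : ℕ) : ℤ) →+ ZMod (lam ^ (n + 1)) :=
    AddMonoidHom.mk' (fun P => ((kf P : ℤ) : ZMod (lam ^ (n + 1)))) hadd
  obtain ⟨P, hP0, hPn⟩ := exists_exact_order_of_hom hlam hcard1 hcard0 ψ
  refine ⟨P, htors P, hPn, ?_⟩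
  have hdvd : ((lam ^ (n + 1) : ℕ) : ℤ) ∣ kf P :=
    (ZMod.intCast_zmod_eq_zero_iff_dvd _ _).mp hP0
  obtain ⟨j, hj⟩ := hdvd
  have h1 := hkf P
  rw [hj] at h1
  have h2 : cls v (P : W.Point) ^ (lam ^ (n + 1)) = (v W.a₄ ^ (2 * j)) ^ (lam ^ (n + 1)) := by
    rw [h1, ← zpow_natCast (v W.a₄ ^ (2 * j)), ← zpow_mul]
    congr 1
    ring
  have h3 : cls v (P : W.Point) = v W.a₄ ^ (2 * j) :=
    (pow_left_inj₀ zero_le zero_le hm0).mp h2
  exact cls_eq_one_of_zpow v hb hb0 _ j h3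

end Fermat.Agent.S58.Mult
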