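/-
S58-PREP, row 375 (MU), brick 3: the integral nodal normal form.

Let `(K, v)` be an algebraically closed valued field with `2 ≠ 0`, and `W` a Weierstrass curve over
`K` with integral coefficients, `v c₄ = 1`, `v Δ < 1`, `Δ ≠ 0` (multiplicative reduction).  Then
there is a change of variables `C = (1, r, s, t)` with integral `r, s, t` such that `C • W` is
`y² + g x y = x³ + b x` with `v g = 1`, `0 < v b < 1`.
-/
import Fermat.Agent.EC.NF.Basic
import Fermat.Agent.EC.NF.NoOddTorsion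
import Fermat.Agent.EC.FrobFixed.Val

set_option autoImplicit false

namespace Fermat.Agent.S58.Mult

open WeierstrassCurve Fermat.Agent.EC.NF Fermat.Agent.EC.FrobFixed Polynomial

section NFFormulas

variable {K : Type*} [Field K]

theorem nf_b₂ {W : WeierstrassCurve K} (hW : IsNF W) : W.b₂ = W.a₁ ^ 2 := by
  rw [WeierstrassCurve.b₂, hW.a₂]; ring

theorem nf_b₄ {W : WeierstrassCurve K} (hW : IsNF W) : W.b₄ = 2 * W.a₄ := by
  rw [WeierstrassCurve.b₄, hW.a₃]; ring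

theorem nf_b₆ {W : WeierstrassCurve K} (hW : IsNF W) : W.b₆ = 0 := by
  rw [WeierstrassCurve.b₆, hW.a₃, hW.a₆]; ring

theorem nf_c₄ {W : WeierstrassCurve K} (hW : IsNF W) : W.c₄ = W.a₁ ^ 4 - 48 * W.a₄ := by
  rw [WeierstrassCurve.c₄, nf_b₂ hW, nf_b₄ hW]; ring

theorem nf_Δ {W : WeierstrassCurve K} (hW : IsNF W) :
    W.Δ = W.a₄ ^ 2 * (W.a₁ ^ 4 - 64 * W.a₄) := by
  rw [WeierstrassCurve.Δ, WeierstrassCurve.b₈, nf_b₂ hW, nf_b₄ hW, nf_b₆ hW, hW.a₂, hW.a₃, hW.a₆]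
  ring

end NFFormulas

section Model

variable {K : Type*} [Field K] {Γ₀ : Type*} [LinearOrderedCommGroupWithZero Γ₀]
  (v : Valuation K Γ₀)

theorem val_natCast_le_one' (n : ℕ) : v (n : K) ≤ 1 := by
  have := val_intCast_le_one v (n : ℤ)
  simpa using this

theorem val_ofNat_le_one' (n : ℕ) [n.AtLeastTwo] : v (OfNat.ofNat n : K) ≤ 1 := by
  rw [← Nat.cast_ofNat (R := K)]
  exact val_natCast_le_one' v _

/-- An integral root of `4x³ + b₂x² + 2b₄x + b₆` exists as soon as `4` or `b₂` is a unit. -/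
theorem exists_integral_root_cubic [IsAlgClosed K] {b₂ b₄ b₆ : K} (h4 : (4 : K) ≠ 0)
    (hb₆ : v b₆ ≤ 1) (hunit : ¬ (v (4 : K) < 1 ∧ v b₂ < 1)) :
    ∃ e : K, 4 * e ^ 3 + b₂ * e ^ 2 + 2 * b₄ * e + b₆ = 0 ∧ v e ≤ 1 := by
  obtain ⟨x, y, z, h3⟩ := (Cubic.splits_iff_roots_eq_three (P := ⟨4, b₂, 2 * b₄, b₆⟩)
    (φ := RingHom.id K) h4).mp (IsAlgClosed.splits _)
  have hb := Cubic.b_eq_three_roots (P := ⟨4, b₂, 2 * b₄, b₆⟩) (φ := RingHom.id K) h4 h3
  have hc := Cubic.c_eq_three_roots (P := ⟨4, b₂, 2 * b₄, b₆⟩) (φ := RingHom.id K) h4 h3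
  have hd := Cubic.d_eq_three_roots (P := ⟨4, b₂, 2 * b₄, b₆⟩) (φ := RingHom.id K) h4 h3
  simp only [RingHom.id_apply] at hb hc hd
  have hroot : ∀ w, (w = x ∨ w = y ∨ w = z) → 4 * w ^ 3 + b₂ * w ^ 2 + 2 * b₄ * w + b₆ = 0 := by
    rintro w (rfl | rfl | rfl) <;> rw [hb, hc, hd] <;> ring
  by_contra hcon
  push Not at hcon
  have hx : 1 < v x := hcon x (hroot x (Or.inl rfl))
  have hy : 1 < v y := hcon y (hroot y (Or.inr (Or.inl rfl)))
  have hz : 1 < v z := hcon z (hroot z (Or.inr (Or.inr rfl)))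
  have hx0 : x ≠ 0 := fun h => by rw [h, map_zero] at hx; exact not_lt.mpr zero_le_one hx
  have hy0 : y ≠ 0 := fun h => by rw [h, map_zero] at hy; exact not_lt.mpr zero_le_one hy
  have hz0 : z ≠ 0 := fun h => by rw [h, map_zero] at hz; exact not_lt.mpr zero_le_one hz
  have hxy : 1 < v (x * y) := by rw [map_mul]; exact one_lt_mul'' hx hy
  have hxz : 1 < v (x * z) := by rw [map_mul]; exact one_lt_mul'' hx hz
  have hyz : 1 < v (y * z) := by rw [map_mul]; exact one_lt_mul'' hy hz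
  have hxyz : 1 < v (x * y * z) := by rw [map_mul]; exact one_lt_mul'' hxy hz
  have h4' : v (4 : K) < 1 := by
    by_contra h
    have h1 : 1 ≤ v (4 : K) := not_lt.mp h
    have e : v b₆ = v 4 * v (x * y * z) := by rw [hd, map_mul, Valuation.map_neg]
    have : 1 < v b₆ := by
      rw [e]
      exact lt_of_lt_of_le hxyz (le_mul_of_one_le_left' h1)
    exact not_lt.mpr hb₆ this
  have hinv : ∀ {w : K}, 1 < v w → v w⁻¹ < 1 := by
    intro w hw
    rw [map_inv₀]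
    exact inv_lt_one_of_one_lt₀ hw
  have hb₂' : v b₂ < 1 := by
    have e : b₂ = b₆ * ((y * z)⁻¹ + (x * z)⁻¹ + (x * y)⁻¹) := by
      rw [hb, hd]
      field_simp
    rw [e, map_mul]
    have hs : v ((y * z)⁻¹ + (x * z)⁻¹ + (x * y)⁻¹) < 1 :=
      v.map_add_lt (v.map_add_lt (hinv hyz) (hinv hxz)) (hinv hxy)
    calc v b₆ * v ((y * z)⁻¹ + (x * z)⁻¹ + (x * y)⁻¹)
        ≤ 1 * v ((y * z)⁻¹ + (x * z)⁻¹ + (x * y)⁻¹) := mul_le_mul_left hb₆ _
      _ = v ((y * z)⁻¹ + (x * z)⁻¹ + (x * y)⁻¹) := one_mul _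
      _ < 1 := hs
  exact hunit ⟨h4', hb₂'⟩

/-- Existence of a root of a monic quadratic. -/
theorem exists_quadratic_root' [IsAlgClosed K] (c d : K) : ∃ y : K, y ^ 2 + c * y + d = 0 := by
  have hdeg : (C (1 : K) * X ^ 2 + C c * X + C d).degree ≠ 0 := by
    rw [Polynomial.degree_quadratic one_ne_zero]
    norm_num
  obtain ⟨y, hy⟩ := IsAlgClosed.exists_root _ hdeg
  refine ⟨y, ?_⟩
  rw [Polynomial.IsRoot.def] at hy
  simpa using hy

/-- One step: an integral root `e` of the 2-division cubic gives an integral change of variables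
to the shape `y² + g x y = x³ + b x`, with `2 b = Ψ₂Sq'(e) / 2`. -/
theorem nf_step [IsAlgClosed K] (W : WeierstrassCurve K) (h2 : (2 : K) ≠ 0)
    (hint : IsIntegralModel v W) {e : K}
    (he : 4 * e ^ 3 + W.b₂ * e ^ 2 + 2 * W.b₄ * e + W.b₆ = 0) (hev : v e ≤ 1) :
    ∃ C : VariableChange K, C.u = 1 ∧ C.r = e ∧ v C.s ≤ 1 ∧ v C.t ≤ 1 ∧ IsNF (C • W) ∧
      v (C • W).a₁ ≤ 1 ∧ v (C • W).a₄ ≤ 1 ∧
      2 * (C • W).a₄ = 6 * e ^ 2 + W.b₂ * e + W.b₄ := by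
  have h4 : (4 : K) ≠ 0 := by
    have : (4 : K) = 2 * 2 := by norm_num
    rw [this]
    exact mul_ne_zero h2 h2
  simp only [WeierstrassCurve.b₂, WeierstrassCurve.b₄, WeierstrassCurve.b₆] at he
  have i₁ : W.a₁ ∈ v.integer := hint.a₁
  have i₂ : W.a₂ ∈ v.integer := hint.a₂
  have i₃ : W.a₃ ∈ v.integer := hint.a₃
  have i₄ : W.a₄ ∈ v.integer := hint.a₄
  have i₆ : W.a₆ ∈ v.integer := hint.a₆
  have ie : e ∈ v.integer := hev
  have i2 : (2 : K) ∈ v.integer := val_ofNat_le_one' v 2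
  have i3 : (3 : K) ∈ v.integer := val_ofNat_le_one' v 3
  -- `t`
  obtain ⟨t, ht⟩ : ∃ t : K, 2 * t + W.a₁ * e + W.a₃ = 0 := by
    refine ⟨-(W.a₁ * e + W.a₃) / 2, ?_⟩
    field_simp
    ring
  have htq : t ^ 2 + (W.a₁ * e + W.a₃) * t +
      -(e ^ 3 + W.a₂ * e ^ 2 + W.a₄ * e + W.a₆) = 0 := by
    have h4G : 4 * (t ^ 2 + (W.a₁ * e + W.a₃) * t +
        -(e ^ 3 + W.a₂ * e ^ 2 + W.a₄ * e + W.a₆)) = 0 := by
      linear_combination (2 * t + W.a₁ * e + W.a₃) * ht - he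
    exact (mul_eq_zero.mp h4G).resolve_left h4
  have it : t ∈ v.integer := by
    have hc' : (W.a₁ * e + W.a₃) ∈ v.integer :=
      Subring.add_mem _ (Subring.mul_mem _ i₁ ie) i₃
    have hd' : -(e ^ 3 + W.a₂ * e ^ 2 + W.a₄ * e + W.a₆) ∈ v.integer :=
      Subring.neg_mem _ (Subring.add_mem _ (Subring.add_mem _ (Subring.add_mem _
        (Subring.pow_mem _ ie 3) (Subring.mul_mem _ i₂ (Subring.pow_mem _ ie 2)))
        (Subring.mul_mem _ i₄ ie)) i₆)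
    exact val_quadratic_root_le_one v hc' hd' htq
  -- `s`
  obtain ⟨s, hs⟩ := exists_quadratic_root' (K := K) W.a₁ (-(W.a₂ + 3 * e))
  have is : s ∈ v.integer := by
    have hd' : -(W.a₂ + 3 * e) ∈ v.integer :=
      Subring.neg_mem _ (Subring.add_mem _ i₂ (Subring.mul_mem _ i3 ie))
    exact val_quadratic_root_le_one v i₁ hd' hs
  let C : VariableChange K := ⟨1, e, s, t⟩
  have c1 : (C • W).a₁ = W.a₁ + 2 * s := by
    simp [variableChange_a₁, C]
  have c2 : (C • W).a₂ = W.a₂ - s * W.a₁ + 3 * e - s ^ 2 := by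
    simp [variableChange_a₂, C]
  have c3 : (C • W).a₃ = W.a₃ + e * W.a₁ + 2 * t := by
    simp [variableChange_a₃, C]
  have c4 : (C • W).a₄ =
      W.a₄ - s * W.a₃ + 2 * e * W.a₂ - (t + e * s) * W.a₁ + 3 * e ^ 2 - 2 * s * t := by
    simp [variableChange_a₄, C]
  have c6 : (C • W).a₆ =
      W.a₆ + e * W.a₄ + e ^ 2 * W.a₂ + e ^ 3 - t * W.a₃ - t ^ 2 - e * t * W.a₁ := by
    simp [variableChange_a₆, C]
  refine ⟨C, rfl, rfl, is, it, ⟨?_, ?_, ?_⟩, ?_, ?_, ?_⟩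
  · rw [c2]; linear_combination -hs
  · rw [c3]; linear_combination ht
  · rw [c6]; linear_combination -htq
  · change (C • W).a₁ ∈ v.integer
    rw [c1]
    exact Subring.add_mem _ i₁ (Subring.mul_mem _ i2 is)
  · change (C • W).a₄ ∈ v.integer
    rw [c4]
    repeat' first
      | assumption
      | apply Subring.add_mem
      | apply Subring.sub_mem
      | apply Subring.mul_mem
      | apply Subring.pow_mem
  · rw [c4, WeierstrassCurve.b₂, WeierstrassCurve.b₄]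
    linear_combination (-2 * s - W.a₁) * ht

/-- For an integral nodal normal form with `v c₄ = 1` and `v b < 1`: `v g = 1`. -/
theorem nf_val_a₁ {W : WeierstrassCurve K} (hW : IsNF W) (hg : v W.a₁ ≤ 1) (hb : v W.a₄ < 1)
    (hc₄ : v W.c₄ = 1) : v W.a₁ = 1 := by
  by_contra hne
  have hlt : v W.a₁ < 1 := lt_of_le_of_ne hg hne
  have h1 : v (W.a₁ ^ 4) < 1 := by
    rw [map_pow]
    exact pow_lt_one' hlt (by norm_num)
  have h2 : v (48 * W.a₄) < 1 := by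
    rw [map_mul]
    calc v (48 : K) * v W.a₄ ≤ 1 * v W.a₄ := mul_le_mul_left (val_ofNat_le_one' v 48) _
      _ = v W.a₄ := one_mul _
      _ < 1 := hb
  have h3 : v W.c₄ < 1 := by
    rw [nf_c₄ hW]
    exact v.map_sub_lt h1 h2
  rw [hc₄] at h3
  exact lt_irrefl _ h3

theorem nf_a₄_ne_zero {W : WeierstrassCurve K} (hW : IsNF W) (hΔ0 : W.Δ ≠ 0) : W.a₄ ≠ 0 := by
  intro h
  apply hΔ0
  rw [nf_Δ hW, h]
  ring

/-- **The integral nodal normal form.** -/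
theorem exists_nf_model [IsAlgClosed K] (W : WeierstrassCurve K) (h2 : (2 : K) ≠ 0)
    (hint : IsIntegralModel v W) (hc₄ : v W.c₄ = 1) (hΔ : v W.Δ < 1) (hΔ0 : W.Δ ≠ 0) :
    ∃ C : VariableChange K, C.u = 1 ∧ v C.r ≤ 1 ∧ v C.s ≤ 1 ∧ v C.t ≤ 1 ∧ IsNF (C • W) ∧
      v (C • W).a₁ = 1 ∧ v (C • W).a₄ < 1 ∧ (C • W).a₄ ≠ 0 := by
  have h4 : (4 : K) ≠ 0 := by
    have : (4 : K) = 2 * 2 := by norm_num
    rw [this]
    exact mul_ne_zero h2 h2
  -- `4` or `b₂` is a unit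
  have hunit : ¬ (v (4 : K) < 1 ∧ v W.b₂ < 1) := by
    rintro ⟨h4', hb₂⟩
    have h1 : v (W.b₂ ^ 2) < 1 := by
      rw [map_pow]
      exact pow_lt_one' hb₂ (by norm_num)
    have h2' : v (24 * W.b₄) < 1 := by
      have e : (24 : K) * W.b₄ = 4 * (6 * W.b₄) := by ring
      rw [e, map_mul]
      have h6 : v (6 * W.b₄) ≤ 1 := by
        rw [map_mul]
        exact mul_le_one' (val_ofNat_le_one' v 6) hint.b₄
      calc v (4 : K) * v (6 * W.b₄) ≤ v (4 : K) * 1 := mul_le_mul_right h6 _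
        _ = v (4 : K) := mul_one _
        _ < 1 := h4'
    have h3 : v W.c₄ < 1 := by
      rw [WeierstrassCurve.c₄]
      exact v.map_sub_lt h1 h2'
    rw [hc₄] at h3
    exact lt_irrefl _ h3
  obtain ⟨e, he, hev⟩ := exists_integral_root_cubic v (b₄ := W.b₄) h4 hint.b₆ hunit
  obtain ⟨C₁, hu₁, hr₁, hs₁, ht₁, hNF₁, hg₁, hb₁, -⟩ := nf_step v W h2 hint he hev
  have hc₄₁ : (C₁ • W).c₄ = W.c₄ := by rw [variableChange_c₄, hu₁]; simp
  have hΔ₁ : (C₁ • W).Δ = W.Δ := by rw [variableChange_Δ, hu₁]; simp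
  by_cases hb : v (C₁ • W).a₄ < 1
  · refine ⟨C₁, hu₁, hr₁ ▸ hev, hs₁, ht₁, hNF₁, ?_, hb, ?_⟩
    · exact nf_val_a₁ v hNF₁ hg₁ hb (hc₄₁ ▸ hc₄)
    · exact nf_a₄_ne_zero hNF₁ (hΔ₁ ▸ hΔ0)
  · -- `b` is a unit: then `2` is a unit and the node is at another 2-torsion point
    have hb1 : v (C₁ • W).a₄ = 1 := le_antisymm hb₁ (not_lt.mp hb)
    set g := (C₁ • W).a₁ with hgdef
    set b := (C₁ • W).a₄ with hbdef
    have hD : v (g ^ 4 - 64 * b) < 1 := by
      have e1 : v (b ^ 2 * (g ^ 4 - 64 * b)) < 1 := by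
        rw [← nf_Δ hNF₁, hΔ₁]; exact hΔ
      rwa [map_mul, map_pow, hb1, one_pow, one_mul] at e1
    have h16b : v (16 * b) = 1 := by
      have e1 : (16 : K) * b = (g ^ 4 - 48 * b) - (g ^ 4 - 64 * b) := by ring
      have e2 : v (g ^ 4 - 48 * b) = 1 := by rw [← nf_c₄ hNF₁, hc₄₁]; exact hc₄
      rw [e1, Valuation.map_sub_eq_of_lt_left v (by rw [e2]; exact hD), e2]
    have h16 : v (16 : K) = 1 := by rwa [map_mul, hb1, mul_one] at h16b
    have hv2 : v (2 : K) = 1 := by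
      by_contra hne
      have hlt : v (2 : K) < 1 := lt_of_le_of_ne (val_ofNat_le_one' v 2) hne
      have e : (16 : K) = 2 ^ 4 := by norm_num
      rw [e, map_pow] at h16
      exact absurd h16 (ne_of_lt (pow_lt_one' hlt (by norm_num)))
    have hv4 : v (4 : K) = 1 := by
      have e : (4 : K) = 2 ^ 2 := by norm_num
      rw [e, map_pow, hv2, one_pow]
    have hv4i : v ((4 : K)⁻¹) = 1 := by rw [map_inv₀, hv4, inv_one]
    -- a root of `4x² + g²x + 4b`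
    obtain ⟨e₂, he₂⟩ := exists_quadratic_root' (K := K) (g ^ 2 * 4⁻¹) b
    have he₂v : v e₂ ≤ 1 := by
      refine val_quadratic_root_le_one v ?_ hb₁ he₂
      rw [map_mul, map_pow, hv4i, mul_one]
      exact pow_le_one' hg₁ 2
    have he₂' : 4 * e₂ ^ 2 + g ^ 2 * e₂ + 4 * b = 0 := by
      have : 4 * (e₂ ^ 2 + g ^ 2 * 4⁻¹ * e₂ + b) = 4 * e₂ ^ 2 + g ^ 2 * e₂ + 4 * b := by
        field_simp
      rw [← this, he₂, mul_zero]
    have hint₁ : IsIntegralModel v (C₁ • W) :=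
      ⟨hg₁, by rw [hNF₁.a₂, map_zero]; exact zero_le_one, by rw [hNF₁.a₃, map_zero]; exact zero_le_one,
        hb₁, by rw [hNF₁.a₆, map_zero]; exact zero_le_one⟩
    have hcub : 4 * e₂ ^ 3 + (C₁ • W).b₂ * e₂ ^ 2 + 2 * (C₁ • W).b₄ * e₂ + (C₁ • W).b₆ = 0 := by
      rw [nf_b₂ hNF₁, nf_b₄ hNF₁, nf_b₆ hNF₁]
      linear_combination e₂ * he₂'
    obtain ⟨C₂, hu₂, hr₂, hs₂, ht₂, hNF₂, hg₂, hb₂, hb₂eq⟩ :=
      nf_step v (C₁ • W) h2 hint₁ hcub he₂v
    rw [nf_b₂ hNF₁, nf_b₄ hNF₁] at hb₂eq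
    have hb₂eq' : (C₂ • C₁ • W).a₄ = e₂ ^ 2 - b := by
      have : 2 * (C₂ • C₁ • W).a₄ = 2 * (e₂ ^ 2 - b) := by
        linear_combination hb₂eq + he₂'
      exact mul_left_cancel₀ h2 this
    have hb₂lt : v (C₂ • C₁ • W).a₄ < 1 := by
      by_contra hcon
      have h1 : v (C₂ • C₁ • W).a₄ = 1 := le_antisymm hb₂ (not_lt.mp hcon)
      have key : 16 * (e₂ ^ 2 - b) ^ 2 = e₂ ^ 2 * (g ^ 4 - 64 * b) := by
        linear_combination (4 * e₂ ^ 2 + 4 * b - g ^ 2 * e₂) * he₂'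
      have hk := congrArg v key
      rw [← hb₂eq', map_mul, map_pow, h16, h1, one_pow, one_mul, map_mul, map_pow] at hk
      have : v e₂ ^ 2 * v (g ^ 4 - 64 * b) < 1 := by
        calc v e₂ ^ 2 * v (g ^ 4 - 64 * b) ≤ 1 * v (g ^ 4 - 64 * b) :=
              mul_le_mul_left (pow_le_one' he₂v 2) _
          _ = v (g ^ 4 - 64 * b) := one_mul _
          _ < 1 := hD
      rw [← hk] at this
      exact lt_irrefl _ this
    have hmul : (C₂ * C₁) • W = C₂ • C₁ • W := mul_smul C₂ C₁ W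
    have hu : (C₂ * C₁).u = 1 := by
      rw [VariableChange.mul_def]; simp [hu₁, hu₂]
    have hc₄₂ : ((C₂ * C₁) • W).c₄ = W.c₄ := by rw [variableChange_c₄, hu]; simp
    have hΔ₂ : ((C₂ * C₁) • W).Δ = W.Δ := by rw [variableChange_Δ, hu]; simp
    have ir₁ : C₁.r ∈ v.integer := by rw [hr₁]; exact hev
    have ir₂ : C₂.r ∈ v.integer := by rw [hr₂]; exact he₂v
    have is₁ : C₁.s ∈ v.integer := hs₁
    have is₂ : C₂.s ∈ v.integer := hs₂
    have it₁ : C₁.t ∈ v.integer := ht₁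
    have it₂ : C₂.t ∈ v.integer := ht₂
    refine ⟨C₂ * C₁, hu, ?_, ?_, ?_, ?_, ?_, ?_, ?_⟩
    · change (C₂ * C₁).r ∈ v.integer
      rw [VariableChange.mul_def]
      simp only [hu₁, Units.val_one, one_pow, mul_one]
      exact Subring.add_mem _ ir₂ ir₁
    · change (C₂ * C₁).s ∈ v.integer
      rw [VariableChange.mul_def]
      simp only [hu₁, Units.val_one, one_mul]
      exact Subring.add_mem _ is₂ is₁
    · change (C₂ * C₁).t ∈ v.integer
      rw [VariableChange.mul_def]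
      simp only [hu₁, Units.val_one, one_pow, mul_one]
      exact Subring.add_mem _ (Subring.add_mem _ it₂ (Subring.mul_mem _ ir₂ is₁)) it₁
    · rw [hmul]; exact hNF₂
    · rw [hmul]
      refine nf_val_a₁ v hNF₂ hg₂ hb₂lt ?_
      rw [← hmul, hc₄₂]; exact hc₄
    · rw [hmul]; exact hb₂lt
    · rw [hmul]
      refine nf_a₄_ne_zero hNF₂ ?_
      rw [← hmul, hΔ₂]; exact hΔ0

end Model

end Fermat.Agent.S58.Mult
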