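/-
S58-PREP, row 375 (MU), brick 4: inertia fixes the prime-to-residue-characteristic torsion points
with nonsingular reduction of a curve with an integral nodal normal form.

* `nf_val_x_le_one_of_torsion` : on `y² + g x y = x³ + b x` (`v g = 1`, `v b < 1`) a nonzero point
  killed by a unit integer is integral (no torsion in the kernel of reduction);
* `nf_eq_of_same_red` : two such points with the same reduction and unit `x`-coordinate are equal;
* `fixed_of_cls_eq_one` : the Galois statement.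

Residue characteristic 2 is handled by `EC/NF` (`no_odd_torsion_of_one_lt`,
`false_of_two_points`), the other ones by completing the square and the Legendre-form library of
`S05` (`sub_inE1_of_same_red`, `E1_torsion_free`).
-/
import Fermat.Agent.EC.NF.NoTors
import Fermat.Agent.EC.NF.ClsHom
import Fermat.Agent.EC.FrobFixed.Val
import Fermat.Agent.S05.LocalMult
import Fermat.Agent.S05.Transfer
import Fermat.Agent.S05.Inertia
import Fermat.Agent.S58.Mult.Model

set_option autoImplicit false

namespace Fermat.Agent.S58.Mult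

open WeierstrassCurve WeierstrassCurve.Affine Fermat.Agent.EC.NF Fermat.Agent.EC.FrobFixed
  Fermat.Agent.S05

section Val

variable {K : Type*} [Field K] [DecidableEq K] {Γ₀ : Type*} [LinearOrderedCommGroupWithZero Γ₀]
  (v : Valuation K Γ₀) {W : Affine K}

omit [DecidableEq K] in
theorem nf_isIntegralModel (hW : IsNF W) (hg : v W.a₁ = 1) (hb : v W.a₄ < 1) :
    IsIntegralModel v W :=
  ⟨hg.le, by rw [hW.a₂, map_zero]; exact zero_le_one, by rw [hW.a₃, map_zero]; exact zero_le_one,
    hb.le, by rw [hW.a₆, map_zero]; exact zero_le_one⟩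

omit [DecidableEq K] in
/-- Integrality of `y` at an integral point of the nodal normal form. -/
theorem nf_val_y_le_one (hW : IsNF W) (hg : v W.a₁ = 1) (hb : v W.a₄ < 1) {x y : K}
    (h : W.Nonsingular x y) (hx : v x ≤ 1) : v y ≤ 1 := by
  have hE := hW.nfEq h
  unfold NFEq at hE
  have ix : x ∈ v.integer := hx
  have ig : W.a₁ ∈ v.integer := hg.le
  have ib : W.a₄ ∈ v.integer := hb.le
  have hc : W.a₁ * x ∈ v.integer := Subring.mul_mem _ ig ix
  have hd : -(x ^ 3 + W.a₄ * x) ∈ v.integer :=
    Subring.neg_mem _ (Subring.add_mem _ (Subring.pow_mem _ ix 3) (Subring.mul_mem _ ib ix))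
  exact val_quadratic_root_le_one v hc hd (by linear_combination hE)

omit [DecidableEq K] in
theorem odd_of_val_eq_one (h2 : v (2 : K) < 1) {m : ℕ} (hm : v (m : K) = 1) : Odd m := by
  rw [← Nat.not_even_iff_odd]
  rintro ⟨k, rfl⟩
  have e : ((k + k : ℕ) : K) = 2 * (k : K) := by push_cast; ring
  rw [e, map_mul] at hm
  have : v (2 : K) * v (k : K) < 1 := by
    calc v (2 : K) * v (k : K) ≤ v (2 : K) * 1 := mul_le_mul_right (val_natCast_le_one' v k) _
      _ = v (2 : K) := mul_one _
      _ < 1 := h2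
  rw [hm] at this
  exact lt_irrefl _ this

/-- Completing the square: the Legendre model of a nodal normal form (`2 s + g = 0`). -/
theorem nf_leg_key (hW : IsNF W) {s : K} (hs : 2 * s + W.a₁ = 0) :
    IsLeg ((⟨1, 0, s, 0⟩ : VariableChange K) • W) ∧
      ((⟨1, 0, s, 0⟩ : VariableChange K) • W).a₂ = s ^ 2 ∧
      ((⟨1, 0, s, 0⟩ : VariableChange K) • W).a₄ = W.a₄ ∧
      ∀ {x y : K} (hP : W.Nonsingular x y),
        ∃ hQ : ((⟨1, 0, s, 0⟩ : VariableChange K) • W).toAffine.Nonsingular x (y - s * x),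
          Transfer.vcEquiv (⟨1, 0, s, 0⟩ : VariableChange K) rfl (Point.some x (y - s * x) hQ) =
            Point.some x y hP := by
  have c1 : ((⟨1, 0, s, 0⟩ : VariableChange K) • W).a₁ = W.a₁ + 2 * s := by
    simp [variableChange_a₁]
  have c2 : ((⟨1, 0, s, 0⟩ : VariableChange K) • W).a₂ = W.a₂ - s * W.a₁ - s ^ 2 := by
    simp [variableChange_a₂]
  have c3 : ((⟨1, 0, s, 0⟩ : VariableChange K) • W).a₃ = W.a₃ := by
    simp [variableChange_a₃]
  have c4 : ((⟨1, 0, s, 0⟩ : VariableChange K) • W).a₄ = W.a₄ - s * W.a₃ := by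
    simp [variableChange_a₄]
  have c6 : ((⟨1, 0, s, 0⟩ : VariableChange K) • W).a₆ = W.a₆ := by
    simp [variableChange_a₆]
  refine ⟨⟨?_, ?_, ?_⟩, ?_, ?_, ?_⟩
  · rw [c1]; linear_combination hs
  · rw [c3, hW.a₃]
  · rw [c6, hW.a₆]
  · rw [c2, hW.a₂]; linear_combination (-s) * hs
  · rw [c4, hW.a₃]; ring
  · intro x y hP
    have eX : Transfer.vcX (⟨1, 0, s, 0⟩ : VariableChange K) x = x := by
      simp [Transfer.vcX]
    have eY : Transfer.vcY (⟨1, 0, s, 0⟩ : VariableChange K) x (y - s * x) = y := by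
      simp only [Transfer.vcY, Units.val_one, one_pow, one_mul]
      ring
    have hQ : ((⟨1, 0, s, 0⟩ : VariableChange K) • W).toAffine.Nonsingular x (y - s * x) := by
      rw [Transfer.nonsingular_iff W _, eX, eY]
      exact hP
    refine ⟨hQ, ?_⟩
    rw [Transfer.vcEquiv_some, Point.some.injEq]
    exact ⟨eX, eY⟩

/-- **No torsion in the kernel of reduction** (nodal normal form, any residue characteristic). -/
theorem nf_val_x_le_one_of_torsion (hW : IsNF W) (hg : v W.a₁ = 1) (hb : v W.a₄ < 1)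
    {m : ℕ} (hm : v (m : K) = 1) {x y : K} (h : W.Nonsingular x y)
    (hmP : m • Point.some x y h = 0) : v x ≤ 1 := by
  by_contra hcon
  have hx : 1 < v x := not_le.mp hcon
  have hint := nf_isIntegralModel v hW hg hb
  by_cases h2 : v (2 : K) < 1
  · exact no_odd_torsion_of_one_lt hint h2 (P := Point.some x y h) (Point.some_ne_zero _)
      (by simpa using hx) (odd_of_val_eq_one v h2 hm) hmP
  · have h2' : v (2 : K) = 1 := le_antisymm (val_ofNat_le_one' v 2) (not_lt.mp h2)
    have h20 : (2 : K) ≠ 0 := fun h0 => by rw [h0, map_zero] at h2'; exact zero_ne_one h2'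
    obtain ⟨s, hs⟩ : ∃ s : K, 2 * s + W.a₁ = 0 := by
      refine ⟨-W.a₁ / 2, ?_⟩
      field_simp
      ring
    have hvs : v s = 1 := by
      have e : 2 * s = -W.a₁ := by linear_combination hs
      have := congrArg v e
      rwa [map_mul, h2', one_mul, Valuation.map_neg, hg] at this
    obtain ⟨hLeg, ha₂, ha₄, key⟩ := nf_leg_key hW hs
    obtain ⟨hQ, e⟩ := key h
    have ha : v ((⟨1, 0, s, 0⟩ : VariableChange K) • W).a₂ ≤ 1 := by
      rw [ha₂, map_pow, hvs, one_pow]
    have hb' : v ((⟨1, 0, s, 0⟩ : VariableChange K) • W).a₄ ≤ 1 := by rw [ha₄]; exact hb.le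
    have htors : m • Point.some x (y - s * x) hQ = 0 := by
      apply (Transfer.vcEquiv (⟨1, 0, s, 0⟩ : VariableChange K) rfl).injective
      rw [map_nsmul, e, hmP, map_zero]
    have hin : InE1 v (Point.some x (y - s * x) hQ) := hx
    have h0 := E1_torsion_free v hLeg ha hb' hm hin htors
    exact Point.some_ne_zero _ h0

/-- **Injectivity of reduction on torsion points with unit `x`-coordinate** (nodal normal form,
any residue characteristic). -/
theorem nf_eq_of_same_red (hW : IsNF W) (hg : v W.a₁ = 1) (hb : v W.a₄ < 1)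
    {m : ℕ} (hm : v (m : K) = 1) {x₁ y₁ x₂ y₂ : K} (h₁ : W.Nonsingular x₁ y₁)
    (h₂ : W.Nonsingular x₂ y₂) (hx₂ : v x₂ = 1) (hx : v (x₁ - x₂) < 1) (hy : v (y₁ - y₂) < 1)
    (hm₁ : m • Point.some x₁ y₁ h₁ = 0) (hm₂ : m • Point.some x₂ y₂ h₂ = 0) :
    Point.some x₁ y₁ h₁ = Point.some x₂ y₂ h₂ := by
  have hint := nf_isIntegralModel v hW hg hb
  have hx₁ : v x₁ = 1 := by
    have e : x₁ = x₂ + (x₁ - x₂) := by ring
    rw [e, Valuation.map_add_eq_of_lt_left v (by rw [hx₂]; exact hx), hx₂]
  have hy₁ : v y₁ ≤ 1 := nf_val_y_le_one v hW hg hb h₁ hx₁.le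
  have hy₂ : v y₂ ≤ 1 := nf_val_y_le_one v hW hg hb h₂ hx₂.le
  by_cases h2 : v (2 : K) < 1
  · by_contra hne
    exact false_of_two_points hint h2 hg (by rw [hW.a₃, map_zero]; exact zero_lt_one) h₁ h₂ hne
      hx₁.le hx₂ hy₂ hx hy (odd_of_val_eq_one v h2 hm) hm₁ hm₂
  · have h2' : v (2 : K) = 1 := le_antisymm (val_ofNat_le_one' v 2) (not_lt.mp h2)
    have h20 : (2 : K) ≠ 0 := fun h0 => by rw [h0, map_zero] at h2'; exact zero_ne_one h2'
    obtain ⟨s, hs⟩ : ∃ s : K, 2 * s + W.a₁ = 0 := by
      refine ⟨-W.a₁ / 2, ?_⟩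
      field_simp
      ring
    have hvs : v s = 1 := by
      have e : 2 * s = -W.a₁ := by linear_combination hs
      have := congrArg v e
      rwa [map_mul, h2', one_mul, Valuation.map_neg, hg] at this
    obtain ⟨hLeg, ha₂, ha₄, key⟩ := nf_leg_key hW hs
    obtain ⟨hQ₁, e₁⟩ := key h₁
    obtain ⟨hQ₂, e₂⟩ := key h₂
    have ha1 : v ((⟨1, 0, s, 0⟩ : VariableChange K) • W).a₂ = 1 := by
      rw [ha₂, map_pow, hvs, one_pow]
    have hb' : v ((⟨1, 0, s, 0⟩ : VariableChange K) • W).a₄ < 1 := by rw [ha₄]; exact hb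
    have t₁ : m • Point.some x₁ (y₁ - s * x₁) hQ₁ = 0 := by
      apply (Transfer.vcEquiv (⟨1, 0, s, 0⟩ : VariableChange K) rfl).injective
      rw [map_nsmul, e₁, hm₁, map_zero]
    have t₂ : m • Point.some x₂ (y₂ - s * x₂) hQ₂ = 0 := by
      apply (Transfer.vcEquiv (⟨1, 0, s, 0⟩ : VariableChange K) rfl).injective
      rw [map_nsmul, e₂, hm₂, map_zero]
    have hY₁ : v (y₁ - s * x₁) ≤ 1 := by
      refine v.map_sub_le hy₁ ?_
      rw [map_mul, hvs, hx₁, one_mul]
    have hYd : v ((y₁ - s * x₁) - (y₂ - s * x₂)) < 1 := by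
      have e : (y₁ - s * x₁) - (y₂ - s * x₂) = (y₁ - y₂) - s * (x₁ - x₂) := by ring
      rw [e]
      apply v.map_sub_lt hy
      rw [map_mul, hvs, one_mul]
      exact hx
    have hE : LegEq ((⟨1, 0, s, 0⟩ : VariableChange K) • W).a₂
        ((⟨1, 0, s, 0⟩ : VariableChange K) • W).a₄ x₁ (y₁ - s * x₁) :=
      (hLeg.equation_iff _ _).mp hQ₁.1
    have hns := LocalMult.nonsing_red v h2' ha1 hb' hx₁ hE
    have hin := sub_inE1_of_same_red v hLeg ha1.le hb'.le hQ₁ hQ₂ hx₁.le hY₁ hx hYd hns
    have htors : m • (Point.some x₁ (y₁ - s * x₁) hQ₁ - Point.some x₂ (y₂ - s * x₂) hQ₂) = 0 := by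
      rw [smul_sub, t₁, t₂, sub_zero]
    have h0 := E1_torsion_free v hLeg ha1.le hb'.le hm hin htors
    rw [← e₁, ← e₂, sub_eq_zero.mp h0]

end Val

section Galois

variable {F K : Type*} [Field F] [Field K] [Algebra F K] [DecidableEq K]

/-- **Inertia fixes the torsion points with nonsingular reduction.**  `W₀` is a curve over `F`,
`C = (1, r, s, t)` an `A`-integral change of variables over `K` putting `W₀⁄K` in nodal normal
form; a point `P'` of the normal form with class `1` killed by a unit integer `m` corresponds to a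
point of `W₀⁄K` fixed by the inertia group of `A`. -/
theorem fixed_of_cls_eq_one (A : ValuationSubring K) (W₀ : Affine F) (C : VariableChange K)
    (hu : C.u = 1) (hr : A.valuation C.r ≤ 1) (hs : A.valuation C.s ≤ 1)
    (ht : A.valuation C.t ≤ 1) (hNF : IsNF (C • (W₀⁄K)))
    (hg : A.valuation (C • (W₀⁄K)).a₁ = 1) (hb : A.valuation (C • (W₀⁄K)).a₄ < 1)
    (hb0 : (C • (W₀⁄K)).a₄ ≠ 0) {m : ℕ} (hm : A.valuation (m : K) = 1)
    (σ : K ≃ₐ[F] K) (hσ : σ ∈ A.inertiaSubgroupIn F)
    (P' : (C • (W₀⁄K)).toAffine.Point) (hcls : cls A.valuation P' = 1) (hmP : m • P' = 0) :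
    Point.map (W' := W₀) σ.toAlgHom (Transfer.vcEquiv C rfl P') = Transfer.vcEquiv C rfl P' := by
  rcases P' with _ | ⟨x', y', h'⟩
  · rfl
  · -- `x'` is a unit
    have hx'1 : 1 ≤ A.valuation x' := by
      rcases (cls_eq_one_iff A.valuation hb hb0 _).mp hcls with h0 | ⟨x, y, h, hP, hx⟩
      · exact absurd h0 (Point.some_ne_zero _)
      · rw [Point.some.injEq] at hP
        rw [hP.1]; exact hx
    have hx'2 : A.valuation x' ≤ 1 :=
      nf_val_x_le_one_of_torsion A.valuation hNF hg hb hm h' hmP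
    have hx' : A.valuation x' = 1 := le_antisymm hx'2 hx'1
    have hy' : A.valuation y' ≤ 1 := nf_val_y_le_one A.valuation hNF hg hb h' hx'2
    -- coordinates on `W₀⁄K`
    have hu' : (C.u : K) = 1 := by rw [hu]; rfl
    have eX : Transfer.vcX C x' = x' + C.r := by simp [Transfer.vcX, hu']
    have eY : Transfer.vcY C x' y' = y' + C.s * x' + C.t := by simp [Transfer.vcY, hu']
    -- the inverse of the transfer, in coordinates
    have key : ∀ {X Y : K} (hP : (W₀⁄K).Nonsingular X Y),
        ∃ hQ : (C • (W₀⁄K)).toAffine.Nonsingular (X - C.r) (Y - C.s * (X - C.r) - C.t),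
          Transfer.vcEquiv C rfl (Point.some (X - C.r) (Y - C.s * (X - C.r) - C.t) hQ) =
            Point.some X Y hP := by
      intro X Y hP
      have eX' : Transfer.vcX C (X - C.r) = X := by simp [Transfer.vcX, hu']
      have eY' : Transfer.vcY C (X - C.r) (Y - C.s * (X - C.r) - C.t) = Y := by
        simp only [Transfer.vcY, hu', one_pow, one_mul]
        ring
      have hQ : (C • (W₀⁄K)).toAffine.Nonsingular (X - C.r) (Y - C.s * (X - C.r) - C.t) := by
        rw [Transfer.nonsingular_iff (W₀⁄K) C, eX', eY']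
        exact hP
      refine ⟨hQ, ?_⟩
      rw [Transfer.vcEquiv_some, Point.some.injEq]
      exact ⟨eX', eY'⟩
    -- the point `P` and its image under `σ`
    have hPns : (W₀⁄K).Nonsingular (Transfer.vcX C x') (Transfer.vcY C x' y') :=
      (Transfer.nonsingular_iff (W₀⁄K) C x' y').mp h'
    have hP : Transfer.vcEquiv C rfl (Point.some x' y' h') =
        Point.some (Transfer.vcX C x') (Transfer.vcY C x' y') hPns := Transfer.vcEquiv_some C rfl h'
    rw [hP, Point.map_some]
    obtain ⟨hQ, eQ⟩ := key ((W₀.baseChange_nonsingular σ.toAlgHom.injective _ _).mpr hPns)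
    -- integrality
    have iX : A.valuation (Transfer.vcX C x') ≤ 1 := by
      rw [eX]; exact A.valuation.map_add_le hx'2 hr
    have iY : A.valuation (Transfer.vcY C x' y') ≤ 1 := by
      rw [eY]
      refine A.valuation.map_add_le (A.valuation.map_add_le hy' ?_) ht
      rw [map_mul]; exact mul_le_one' hs hx'2
    have dX := inertia_spec A σ hσ _ iX
    have dY := inertia_spec A σ hσ _ iY
    -- torsion
    have hmQ : m • Point.some _ _ hQ = 0 := by
      apply (Transfer.vcEquiv C rfl).injective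
      rw [map_nsmul, eQ, map_zero]
      have h1 : Point.some (σ.toAlgHom (Transfer.vcX C x')) (σ.toAlgHom (Transfer.vcY C x' y'))
          ((W₀.baseChange_nonsingular σ.toAlgHom.injective _ _).mpr hPns) =
          Point.map (W' := W₀) σ.toAlgHom (Transfer.vcEquiv C rfl (Point.some x' y' h')) := by
        rw [hP, Point.map_some]
      rw [h1, ← map_nsmul, ← map_nsmul, hmP, map_zero, map_zero]
    -- same reduction
    have hxd : A.valuation ((σ.toAlgHom (Transfer.vcX C x') - C.r) - x') < 1 := by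
      have e : (σ.toAlgHom (Transfer.vcX C x') - C.r) - x' =
          σ (Transfer.vcX C x') - Transfer.vcX C x' := by
        change σ (Transfer.vcX C x') - C.r - x' = σ (Transfer.vcX C x') - Transfer.vcX C x'
        linear_combination eX
      rw [e]; exact dX
    have hyd : A.valuation ((σ.toAlgHom (Transfer.vcY C x' y') -
        C.s * (σ.toAlgHom (Transfer.vcX C x') - C.r) - C.t) - y') < 1 := by
      have e : (σ.toAlgHom (Transfer.vcY C x' y') -
          C.s * (σ.toAlgHom (Transfer.vcX C x') - C.r) - C.t) - y' =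
          (σ (Transfer.vcY C x' y') - Transfer.vcY C x' y') -
            C.s * (σ (Transfer.vcX C x') - Transfer.vcX C x') := by
        change σ (Transfer.vcY C x' y') - C.s * (σ (Transfer.vcX C x') - C.r) - C.t - y' =
          (σ (Transfer.vcY C x' y') - Transfer.vcY C x' y') -
            C.s * (σ (Transfer.vcX C x') - Transfer.vcX C x')
        linear_combination eY - C.s * eX
      rw [e]
      apply A.valuation.map_sub_lt dY
      rw [map_mul]
      calc A.valuation C.s * A.valuation (σ (Transfer.vcX C x') - Transfer.vcX C x')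
          ≤ 1 * A.valuation (σ (Transfer.vcX C x') - Transfer.vcX C x') := mul_le_mul_left hs _
        _ = A.valuation (σ (Transfer.vcX C x') - Transfer.vcX C x') := one_mul _
        _ < 1 := dX
    have hEq := nf_eq_of_same_red A.valuation hNF hg hb hm hQ h' hx' hxd hyd hmQ hmP
    rw [← eQ, hEq, hP]

end Galois

end Fermat.Agent.S58.Mult
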