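/-
S58-PREP, row 375 (MU): multiplicative reduction — `MultFixed`.

For an integral Weierstrass model `W` with multiplicative reduction at `q` (`q ∣ Δ`, `q ∤ c₄`),
a valuation subring `A` of `ℚ̄` over `q`, a prime `lam ≠ q` and `n : ℕ`, there is a point of exact
order `lam ^ (n+1)` of `E(ℚ̄)` fixed by the inertia group of `A`.

Proof: over `ℚ̄` the curve has an `A`-integral nodal normal form (`Model.lean`); on it the class
map `cls` of `EC/NF` has kernel the points with nonsingular reduction and cyclic image on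
`E[lam ^ (n+1)]`, so the kernel contains a point of exact order `lam ^ (n+1)` (`Group.lean`,
`Cls.lean`); inertia fixes the prime-to-`q` torsion points with nonsingular reduction
(`Fixed.lean`).
-/
import Fermat.Agent.S58.Interfaces
import Fermat.Agent.S58.Mult.Cls
import Fermat.Agent.S58.Mult.Fixed
import Fermat.Agent.Lib.ECBiquad.Main
import Fermat.Agent.EC.FrobFixed.Main

set_option autoImplicit false

namespace Fermat.Agent.S58.Mult

open WeierstrassCurve WeierstrassCurve.Affine Fermat.Agent.EC.NF Fermat.Agent.EC.FrobFixed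
  Fermat.Agent.S05
open scoped WeierstrassCurve.Affine

/-- **(MU)** multiplicative reduction: a point of exact order `lam ^ (n + 1)` fixed by inertia. -/
theorem multFixed : MultFixed := by
  intro W q hq hΔ0 hqΔ hqc₄ A hA lam hlam hlamq n
  have hvq : A.valuation ((q : ℕ) : Qb) < 1 := by
    have : (q : Qb) ∈ A.nonunits := hA
    rwa [ValuationSubring.mem_nonunits_iff] at this
  -- the curve over `ℚ̄`
  have hWK : ((EQ W).toAffine⁄Qb) = W.map (Int.castRingHom Qb) := baseChange_eq_map W
  obtain ⟨i₁, i₂, i₃, i₄, i₆⟩ := val_coeffs_le_one A.valuation W _ hWK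
  have hint : IsIntegralModel A.valuation ((EQ W).toAffine⁄Qb) := ⟨i₁, i₂, i₃, i₄, i₆⟩
  have hc₄ : A.valuation ((EQ W).toAffine⁄Qb).c₄ = 1 := by
    rw [hWK, map_c₄, eq_intCast]
    exact val_intCast_eq_one A.valuation hq hvq hqc₄
  have hΔ : A.valuation ((EQ W).toAffine⁄Qb).Δ < 1 := by
    rw [hWK, map_Δ, eq_intCast]
    exact val_intCast_lt_one A.valuation hvq hqΔ
  have hΔ0' : ((EQ W).toAffine⁄Qb).Δ ≠ 0 := by
    rw [hWK, map_Δ, eq_intCast]
    exact_mod_cast hΔ0
  have h2 : (2 : Qb) ≠ 0 := two_ne_zero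
  obtain ⟨C, hu, hr, hs, ht, hNF, hg, hb, hb0⟩ :=
    exists_nf_model A.valuation ((EQ W).toAffine⁄Qb) h2 hint hc₄ hΔ hΔ0'
  -- the size of the torsion of the normal form
  have hcard : ∀ k : ℕ, k ≠ 0 →
      Nat.card (Submodule.torsionBy ℤ (C • ((EQ W).toAffine⁄Qb)).toAffine.Point ((k : ℕ) : ℤ)) =
        k ^ 2 := by
    intro k hk
    rw [← Lib.ECBiquad.card_torsionBy_int W hΔ0 hk]
    exact card_torsionBy_congr (Transfer.vcEquiv C rfl) _
  obtain ⟨P', hP1, hP2, hcls⟩ := exists_torsion_cls_eq_one A.valuation hNF hg hb hb0 hlam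
    (hcard _ (pow_ne_zero _ hlam.ne_zero)) (hcard _ (pow_ne_zero _ hlam.ne_zero))
  refine ⟨Transfer.vcEquiv C rfl P', ?_, ?_, ?_⟩
  · rw [← map_nsmul, hP1, map_zero]
  · rw [← map_nsmul]
    intro h
    exact hP2 ((map_eq_zero_iff _ (Transfer.vcEquiv C rfl).injective).mp h)
  · intro τ hτ
    have hvlam : A.valuation ((lam : ℕ) : Qb) = 1 := by
      have hnd : ¬ (q : ℤ) ∣ (lam : ℤ) := by
        intro h
        have h' : q ∣ lam := Int.natCast_dvd_natCast.mp h
        exact hlamq ((Nat.prime_dvd_prime_iff_eq hq hlam).mp h').symm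
      have := val_intCast_eq_one A.valuation hq hvq hnd
      simpa using this
    have hm : A.valuation ((lam ^ (n + 1) : ℕ) : Qb) = 1 := by
      rw [Nat.cast_pow, map_pow, hvlam, one_pow]
    exact fixed_of_cls_eq_one A (EQ W).toAffine C hu hr hs ht hNF hg hb hb0 hm τ hτ P' hcls hP1

end Fermat.Agent.S58.Mult
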